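import Fermat.Agent.CFT.W.NV.Defs
import Fermat.Agent.CFT.T.Iso

/-! # CFT / Part W, WP W-LN3 (see NV/Defs.lean). -/

set_option autoImplicit false

open ExtCitation Module

namespace Fermat.Agent.CFT

namespace IsoAux

variable {k : Type} [Field k] {G H : Type} [Group G] [Group H] {𝒰 : Levels G} {𝒱 : Levels H}

theorem H2_iso (φ : H ≃* G)
    (hle : ∀ U ∈ 𝒱.carrier, ∃ U' ∈ 𝒰.carrier, U'.comap φ.toMonoidHom ≤ U)
    (hge : ∀ U' ∈ 𝒰.carrier, ∃ U ∈ 𝒱.carrier, U ≤ U'.comap φ.toMonoidHom) :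
    Nonempty (H2 𝒱 (1 : Representation k H k) ≃ₗ[k] H2 𝒰 (1 : Representation k G k)) :=
  Transport.quot_iso (LinearMap.funLeft k k (Prod.map φ.symm φ.symm))
    (LinearMap.funLeft k k (Prod.map φ φ))
    (fun a => funext fun ⟨x, y⟩ => by simp [LinearMap.funLeft_apply])
    (fun a => funext fun ⟨x, y⟩ => by simp [LinearMap.funLeft_apply])
    (fun _ ha => pb_Z2_symm φ hle ha) (fun _ ha => pb_Z2 φ hge ha)
    (fun _ ha => pb_B2_symm φ hle ha) (fun _ ha => pb_B2 φ hge ha)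

end IsoAux

open IsoAux in
theorem Datum.NVTriv.of_iso {D D' : Datum} (e : D.Iso D') {k : Type} [Field k]
    (h : D'.NVTriv k) : D.NVTriv k := by
  have eL : ∀ v, Nonempty (H2 (D.levv v) (D.loc (1 : Representation k D.G k) v) ≃ₗ[k]
      H2 (D'.levv (e.eι v)) (D'.loc (1 : Representation k D'.G k) (e.eι v))) := fun v =>
    H2_iso (k := k) (e.ev v) (e.levv_le v) (e.levv_ge v)
  refine ⟨fun v => ?_, fun v => ?_⟩
  · have := h.fin (e.eι v)
    exact Module.Finite.equiv (eL v).some.symm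
  · rw [(eL v).some.finrank_eq]
    exact h.le (e.eι v)

end Fermat.Agent.CFT
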