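import Fermat.Agent.CFT.W.NV.Defs
import Fermat.Agent.CFT.T.LocalP
import Fermat.Agent.CFT.T.Codim

/-! # CFT / Part W, WP W-LN2 (see NV/Defs.lean). -/

set_option autoImplicit false

open ExtCitation Module

namespace Fermat.Agent.CFT

/-- `H^2` generated by one non trivial class is finite of dimension `≥ 1` -/
theorem finite_H2_of_gen {k : Type} [Field k] {G : Type} [Group G] {𝒰 : Levels G} {V : Type}
    [AddCommGroup V] [Module k V] {σ : Representation k G V} {c₀ : G × G → V}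
    (hc₀ : c₀ ∈ Z2 𝒰 σ) (hn : c₀ ∉ B2 𝒰 σ)
    (hgen : ∀ c ∈ Z2 𝒰 σ, ∃ t : k, c - t • c₀ ∈ B2 𝒰 σ) :
    Module.Finite k (H2 𝒰 σ) ∧ 1 ≤ finrank k (H2 𝒰 σ) := by
  set x₀ : H2 𝒰 σ := Submodule.Quotient.mk ⟨c₀, hc₀⟩ with hx₀
  have hx₀ne : x₀ ≠ 0 := by
    intro h
    rw [hx₀, Submodule.Quotient.mk_eq_zero] at h
    exact hn h
  have hspan : Submodule.span k {x₀} = ⊤ := by
    rw [eq_top_iff]
    intro x _
    obtain ⟨c, rfl⟩ := Submodule.Quotient.mk_surjective _ x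
    obtain ⟨t, ht⟩ := hgen c.1 c.2
    rw [Submodule.mem_span_singleton]
    refine ⟨t, ?_⟩
    rw [hx₀, ← Submodule.Quotient.mk_smul, eq_comm, Submodule.Quotient.eq]
    exact ht
  have hfin : Module.Finite k (H2 𝒰 σ) := ⟨⟨{x₀}, by rw [Finset.coe_singleton]; exact hspan⟩⟩
  exact ⟨hfin, Nat.succ_le_of_lt (Module.finrank_pos_iff_exists_ne_zero.2 ⟨x₀, hx₀ne⟩)⟩

variable {p : ℕ} [Fact p.Prime]

open Fermat.Agent.CFT.Br Fermat.Agent.CFT.Global in
theorem nvTriv_of_nice (hp2 : p ≠ 2) (S : Finset Nat.Primes)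
    (hpS : pPrime p ∈ S) {W : Subgroup GQ} (hW : NiceLevel p S W) {ι : Type} [Fintype ι]
    [DecidableEq ι] (A : ι → ValuationSubring Qb) (hA : IsPlaceSystem S W A) :
    (DF S W A).NVTriv (ZMod p) := by
  have hp : p.Prime := Fact.out
  obtain ⟨N, η, hN, hη, hηp, -, -⟩ := hW.kum
  obtain ⟨F, hF, hFn, rfl⟩ := hW.mem
  have hfd : FiniteDimensional ℚ F := hF.1
  have hη0 : η ≠ 0 := hη.ne_zero (pow_ne_zero _ hp.ne_zero)
  have hζ₀ : IsPrimitiveRoot (η ^ p ^ N) p :=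
    hη.pow (pow_pos hp.pos _) (pow_succ p N)
  have hζfix : ∀ s ∈ F.fixingSubgroup, s (η ^ p ^ N) = η ^ p ^ N := by
    intro s hs
    obtain ⟨k, rfl⟩ : ∃ k, N = k + 1 := ⟨N - 1, by omega⟩
    rw [pow_succ' p k, pow_mul, map_pow, hηp s hs]
  have hζ0 : η ^ p ^ N ≠ 0 := pow_ne_zero _ hη0
  set ζ : Qbˣ := Units.mk0 (η ^ p ^ N) hζ0 with hζdef
  have hζ : IsPrimitiveRoot ζ p := by
    rw [← IsPrimitiveRoot.coe_units_iff]
    exact hζ₀
  choose q hqS hqA using hA.lies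
  have key : ∀ v, Module.Finite (ZMod p) (H2 (locLev F.fixingSubgroup (A v))
        (1 : Representation (ZMod p) ↥(locSub F.fixingSubgroup (A v)) (ZMod p))) ∧
      1 ≤ finrank (ZMod p) (H2 (locLev F.fixingSubgroup (A v))
        (1 : Representation (ZMod p) ↥(locSub F.fixingSubgroup (A v)) (ZMod p))) := by
    intro v
    have hsys : LS.IsLocSys (Ω := Qb) (locLev F.fixingSubgroup (A v)) (A v).valuation :=
      Dict.isLocSys_locSub F (q v).2 (hqA v)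
    have hχc : ∀ g : ↥(locSub F.fixingSubgroup (A v)),
        uAct ↥(locSub F.fixingSubgroup (A v)) Qb g ζ
        = ζ ^ (((1 : ↥(locSub F.fixingSubgroup (A v)) →* (ZMod p)ˣ) g : (ZMod p)ˣ) : ZMod p).val := by
      intro g
      rw [MonoidHom.one_apply, Units.val_one, ZMod.val_one, pow_one]
      exact Units.ext (hζfix g.1.1 g.1.2)
    obtain ⟨c₀, hc₀, hn⟩ := hsys.exists_not_mem_B2_mu hζ hχc
    have hgen := fun c hc => hsys.exists_smul_sub_mem_B2 hζ hχc hc₀ hn (c := c) hc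
    rw [Codim.chiRep_one] at hc₀ hn hgen
    exact finite_H2_of_gen hc₀ hn hgen
  exact ⟨fun v => (key v).1, fun v => (key v).2⟩

end Fermat.Agent.CFT
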