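import Fermat.Agent.CFT.W.Defs
import Fermat.Agent.CFT.T.Defs

/-!
# CFT / Part W : instantiation at `DS S` (`k = ZMod p`).

* WP W-LN1 `Datum.LocNV.of_restr` (abstract Mackey): (LN) may be checked over `W` with trivial coefficients.
  `locH2_restr` (F/Shapiro/Main.lean) gives `H2_v(k[G/W]) ≃ ∏_{o : R.O v} H2(W_w,k)`; and
  `dim (k[G/W])^{G_v} = #(R.O v)`: a function on `G/W` is `G_v`-invariant iff it is constant on the `G_v`-orbits, and
  `R.bij v` says that the orbits are parametrised by `R.O v` (`F ↦ (o ↦ F (R.g v o))` is a linear equivalence).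
* WP W-LN3 `Datum.NVTriv.of_iso` : transport along `Datum.Iso` (pattern: T/Iso.lean `H1_iso`, `pb_Z2`, `pb_B2`).
* WP W-LN2 `nvTriv_of_nice` : for `L = Qb^W` nice (`μ_p ⊂ L`) and a place `A` over `q ∈ S`:
  `H^2(D_A ∩ W, F_p)` is finite of dimension `≥ 1`: `LS.isLocSys_of_open`, `IsLocSys.exists_not_mem_B2_mu`,
  `IsLocSys.exists_smul_sub_mem_B2` (as in T/LocalP.lean `h2_le_one`; `chiRep (cycloChar p)` restricted to `W` is trivial by
  `hW.mu`; group `↥(Global.locSub W A)` versus `↥(locG W A)`: as in T/Codim.lean `Codim.loc_cyc`).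
* WP W-INST `exists_wctx_DS` : assembly, and `lam v c ≠ 0` for every non trivial local class at EVERY `v ∈ S`.
-/

set_option autoImplicit false

open ExtCitation Module

namespace Fermat.Agent.CFT

/-- (LN) for trivial coefficients -/
structure Datum.NVTriv (D : Datum) (k : Type) [Field k] : Prop where
  fin : ∀ v, Module.Finite k (H2 (D.levv v) (D.loc (1 : Representation k D.G k) v))
  le : ∀ v, 1 ≤ finrank k (H2 (D.levv v) (D.loc (1 : Representation k D.G k) v))

end Fermat.Agent.CFT
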