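import Fermat.Agent.CFT.W.NV.Defs
import Fermat.Agent.CFT.F.Shapiro.Main

/-! # CFT / Part W, WP W-LN1 (see NV/Defs.lean). -/

set_option autoImplicit false

open ExtCitation Module

namespace Fermat.Agent.CFT

/-- a `G_v`-invariant function on `G/W` is constant on the `G_v`-orbits -/
theorem Datum.apply_smul_of_mem_invariants (D : Datum) {k : Type} [Field k] {W : Subgroup D.G}
    (v : D.ι) {F : D.G ⧸ W → k} (hF : F ∈ (D.loc (permRep k W) v).invariants) (h : D.Gv v)
    (x : D.G ⧸ W) : F (D.r v h • x) = F x := by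
  have h1 := congrFun (hF h⁻¹) x
  simpa using h1

/-- evaluation at the representatives of the orbits -/
noncomputable def Datum.RestrData.evalInv {D : Datum} {W : Subgroup D.G} (R : D.RestrData W)
    (k : Type) [Field k] (v : D.ι) :
    ↥((D.loc (permRep k W) v).invariants) →ₗ[k] (R.O v → k) where
  toFun F o := F.1 ((R.g v o : D.G) : D.G ⧸ W)
  map_add' _ _ := rfl
  map_smul' _ _ := rfl

theorem Datum.RestrData.evalInv_bijective {D : Datum} {W : Subgroup D.G} (R : D.RestrData W)
    (k : Type) [Field k] (v : D.ι) : Function.Bijective (R.evalInv k v) := by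
  constructor
  · rw [injective_iff_map_eq_zero]
    intro F hF
    apply Subtype.ext
    funext x
    obtain ⟨o, ⟨h, rfl⟩, -⟩ := R.bij v x
    have h1 := D.apply_smul_of_mem_invariants v F.2 h ((R.g v o : D.G) : D.G ⧸ W)
    have h2 : F.1 ((R.g v o : D.G) : D.G ⧸ W) = 0 := congrFun hF o
    have h3 : ((D.r v h * R.g v o : D.G) : D.G ⧸ W) = D.r v h • ((R.g v o : D.G) : D.G ⧸ W) := rfl
    rw [h3, h1, h2]
    rfl
  · intro f
    choose o ho huniq using R.bij v
    refine ⟨⟨fun x => f (o x), fun h => ?_⟩, ?_⟩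
    · funext x
      show f (o ((D.r v h)⁻¹ • x)) = f (o x)
      congr 1
      obtain ⟨h', hh'⟩ := ho ((D.r v h)⁻¹ • x)
      refine (huniq x _ ⟨h * h', ?_⟩)
      have h3 : ((D.r v (h * h') * R.g v (o ((D.r v h)⁻¹ • x)) : D.G) : D.G ⧸ W) =
          D.r v h • ((D.r v h' * R.g v (o ((D.r v h)⁻¹ • x)) : D.G) : D.G ⧸ W) := by
        rw [map_mul, mul_assoc]
        rfl
      rw [h3, ← hh', smul_inv_smul]
    · funext o'
      show f (o ((R.g v o' : D.G) : D.G ⧸ W)) = f o'
      congr 1
      exact (huniq _ o' ⟨1, by simp⟩).symm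

theorem Datum.finrank_invariants_loc_permRep (D : Datum) {k : Type} [Field k] {W : Subgroup D.G}
    (hW : W ∈ D.lev.carrier) (R : D.RestrData W) (v : D.ι) :
    finrank k ↥((D.loc (permRep k W) v).invariants) = Fintype.card (R.O v) := by
  rw [(LinearEquiv.ofBijective _ (R.evalInv_bijective k v)).finrank_eq, Module.finrank_fintype_fun_eq_card]

theorem Datum.LocNV.of_restr (D : Datum) {k : Type} [Field k] {W : Subgroup D.G}
    (hW : W ∈ D.lev.carrier) (R : D.RestrData W) (h : (D.restr hW R).NVTriv k) :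
    D.LocNV k W := by
  have hfin : ∀ (v : D.ι) (o : R.O v), Module.Finite k
      (H2 ((D.restr hW R).levv ⟨v, o⟩) ((D.restr hW R).loc (D.one' hW R k) ⟨v, o⟩)) :=
    fun v o => h.fin ⟨v, o⟩
  refine ⟨fun v => ?_, fun v => ?_⟩
  · obtain ⟨e⟩ := D.locH2_restr hW R k v
    have := hfin v
    exact Module.Finite.equiv e.symm
  · obtain ⟨e⟩ := D.locH2_restr hW R k v
    have := hfin v
    have hfree : ∀ o : R.O v, Module.Free k
        (H2 ((D.restr hW R).levv ⟨v, o⟩) ((D.restr hW R).loc (D.one' hW R k) ⟨v, o⟩)) :=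
      fun o => Module.Free.of_divisionRing _ _
    rw [D.finrank_invariants_loc_permRep hW R v, e.finrank_eq, Module.finrank_pi_fintype,
      Fintype.card_eq_sum_ones]
    exact Finset.sum_le_sum fun o _ => h.le ⟨v, o⟩

end Fermat.Agent.CFT
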